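import Mathlib

set_option autoImplicit false

namespace Fermat.Agent.S49

open Module

/-- A commuting family of operators (image of a commutative ring) on a nonzero stable subspace of
a finite-dimensional space over an algebraically closed field has a common eigenvector. -/
theorem exists_common_eigenvector {K V T : Type*} [Field K] [IsAlgClosed K] [AddCommGroup V]
    [Module K V] [FiniteDimensional K V] [CommRing T] (φ : T →+* Module.End K V)
    (W : Submodule K V) (hW : W ≠ ⊥) (hstab : ∀ t, ∀ w ∈ W, φ t w ∈ W) :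
    ∃ g ∈ W, g ≠ 0 ∧ ∀ t, ∃ c : K, φ t g = c • g := by
  classical
  let 𝒮 : Set (Submodule K V) := {W' | W' ≠ ⊥ ∧ W' ≤ W ∧ ∀ t, ∀ w ∈ W', φ t w ∈ W'}
  have hne : 𝒮.Nonempty := ⟨W, hW, le_rfl, hstab⟩
  obtain ⟨W', hW'mem, hW'min⟩ := (wellFounded_lt (α := Submodule K V)).has_min 𝒮 hne
  obtain ⟨hW'ne, hW'le, hW'stab⟩ := hW'mem
  have hscalar : ∀ t, ∃ c : K, ∀ w ∈ W', φ t w = c • w := by
    intro t
    let f : Module.End K W' := (φ t).restrict (hW'stab t)
    have : Nontrivial W' := Submodule.nontrivial_iff_ne_bot.mpr hW'ne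
    obtain ⟨c, hc⟩ := Module.End.exists_eigenvalue f
    obtain ⟨v, hv⟩ := hc.exists_hasEigenvector
    refine ⟨c, ?_⟩
    let W'' : Submodule K V := W' ⊓ LinearMap.ker (φ t - c • (1 : Module.End K V))
    have hv1 : φ t (v : V) = c • (v : V) := by
      have := hv.apply_eq_smul
      have h2 := congrArg (Subtype.val) this
      simpa [f] using h2
    have hvne : (v : V) ≠ 0 := by
      intro h0
      exact hv.2 (Subtype.ext h0)
    have hW''mem : W'' ∈ 𝒮 := by
      refine ⟨?_, inf_le_left.trans hW'le, ?_⟩
      · intro hbot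
        have : (v : V) ∈ W'' := by
          refine ⟨v.2, ?_⟩
          simp [LinearMap.mem_ker, hv1]
        rw [hbot] at this
        exact hvne (by simpa using this)
      · intro s w hw
        refine ⟨hW'stab s w hw.1, ?_⟩
        have hw2 : φ t w = c • w := by
          have := hw.2
          simp only [SetLike.mem_coe, LinearMap.mem_ker, LinearMap.sub_apply, LinearMap.smul_apply,
            Module.End.one_apply] at this
          exact sub_eq_zero.mp this
        have hcomm : φ t (φ s w) = φ s (φ t w) := by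
          rw [← Module.End.mul_apply, ← Module.End.mul_apply, ← map_mul, ← map_mul, mul_comm]
        simp only [SetLike.mem_coe, LinearMap.mem_ker, LinearMap.sub_apply, LinearMap.smul_apply,
            Module.End.one_apply]
        rw [hcomm, hw2, map_smul, sub_self]
    have hle : W'' ≤ W' := inf_le_left
    have heq : W'' = W' := by
      by_contra hne'
      exact hW'min W'' hW''mem (lt_of_le_of_ne hle hne')
    intro w hw
    have : w ∈ W'' := heq ▸ hw
    have := this.2
    simp only [SetLike.mem_coe, LinearMap.mem_ker, LinearMap.sub_apply, LinearMap.smul_apply,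
            Module.End.one_apply] at this
    exact sub_eq_zero.mp this
  obtain ⟨g, hg, hg0⟩ := Submodule.exists_mem_ne_zero_of_ne_bot hW'ne
  refine ⟨g, hW'le hg, hg0, fun t => ?_⟩
  obtain ⟨c, hc⟩ := hscalar t
  exact ⟨c, hc g hg⟩

/-- Abstract Deligne–Serre lifting: a maximal ideal of a commutative ring `T`, finite over `ℤ` and
acting faithfully on a finite-dimensional complex vector space, contains the kernel of an
eigensystem occurring in that space. -/
theorem exists_eigen_of_maximal {T V : Type*} [CommRing T] [AddCommGroup V] [Module ℂ V]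
    [FiniteDimensional ℂ V] (φ : T →+* Module.End ℂ V) (hφ : Function.Injective φ)
    [Module.Finite ℤ T] (𝔪 : Ideal T) [𝔪.IsMaximal] :
    ∃ (g : V) (lam : T →+* ℂ), g ≠ 0 ∧ (∀ t, φ t g = lam t • g) ∧ RingHom.ker lam ≤ 𝔪 := by
  classical
  have : IsNoetherian ℤ T := isNoetherian_of_isNoetherianRing_of_finite ℤ T
  have : IsNoetherianRing T := isNoetherian_of_tower ℤ inferInstance
  have : Algebra.IsIntegral ℤ T := Algebra.IsIntegral.of_finite ℤ T
  obtain ⟨𝔭, h𝔭min, h𝔭le⟩ := Ideal.exists_minimalPrimes_le (bot_le : (⊥ : Ideal T) ≤ 𝔪)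
  have hann : Module.annihilator T T = ⊥ := by
    rw [eq_bot_iff]
    intro x hx
    have := Module.mem_annihilator.mp hx 1
    simpa using this
  have hass : 𝔭 ∈ associatedPrimes T T :=
    Module.associatedPrimes.minimalPrimes_annihilator_subset_associatedPrimes T T (hann ▸ h𝔭min)
  obtain ⟨h𝔭prime, s, hs⟩ := (isAssociatedPrime_iff (M := T)).mp hass
  have hmem : ∀ t, t ∈ 𝔭 ↔ t * s = 0 := by
    intro t
    rw [hs, Submodule.mem_colon_singleton]
    simp
  have hs0 : s ≠ 0 := by
    intro h0
    apply h𝔭prime.ne_top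
    rw [Ideal.eq_top_iff_one, hmem, h0, mul_zero]
  have hφs : φ s ≠ 0 := by
    intro h0
    exact hs0 (hφ (by rw [h0, map_zero]))
  obtain ⟨v, hv⟩ : ∃ v, φ s v ≠ 0 := by
    by_contra hcon
    push Not at hcon
    exact hφs (LinearMap.ext hcon)
  let W : Submodule ℂ V :=
    { carrier := {w | ∀ t ∈ 𝔭, φ t w = 0}
      add_mem' := by
        intro a b ha hb t ht
        rw [map_add, ha t ht, hb t ht, add_zero]
      zero_mem' := by
        intro t _
        exact map_zero _
      smul_mem' := by
        intro c a ha t ht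
        rw [map_smul, ha t ht, smul_zero] }
  have hWne : W ≠ ⊥ := by
    intro hbot
    have : φ s v ∈ W := by
      intro t ht
      rw [← Module.End.mul_apply, ← map_mul, (hmem t).mp ht, map_zero]
      rfl
    rw [hbot] at this
    exact hv (by simpa using this)
  have hWstab : ∀ t, ∀ w ∈ W, φ t w ∈ W := by
    intro t w hw u hu
    rw [← Module.End.mul_apply, ← map_mul, mul_comm, map_mul, Module.End.mul_apply, hw u hu,
      map_zero]
  obtain ⟨g, hgW, hg0, hgeig⟩ := exists_common_eigenvector φ W hWne hWstab
  choose lam hlam using hgeig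
  have hinj : Function.Injective (fun c : ℂ => c • g) := smul_left_injective ℂ hg0
  let lamHom : T →+* ℂ :=
    { toFun := lam
      map_one' := by
        apply hinj
        show lam 1 • g = (1 : ℂ) • g
        rw [← hlam, map_one, one_smul]; rfl
      map_mul' := by
        intro x y
        apply hinj
        show lam (x * y) • g = (lam x * lam y) • g
        rw [← hlam, map_mul, Module.End.mul_apply, hlam y, map_smul, hlam x, smul_smul, mul_comm]
      map_zero' := by
        apply hinj
        show lam 0 • g = (0 : ℂ) • g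
        rw [← hlam, map_zero, zero_smul]; rfl
      map_add' := by
        intro x y
        apply hinj
        show lam (x + y) • g = (lam x + lam y) • g
        rw [← hlam, map_add, LinearMap.add_apply, hlam x, hlam y, add_smul] }
  refine ⟨g, lamHom, hg0, hlam, ?_⟩
  have hle : 𝔭 ≤ RingHom.ker lamHom := by
    intro t ht
    rw [RingHom.mem_ker]
    apply hinj
    show lam t • g = (0 : ℂ) • g
    rw [← hlam, hgW t ht, zero_smul]
  have hker_comap : (RingHom.ker lamHom).comap (algebraMap ℤ T) = ⊥ := by
    rw [eq_bot_iff]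
    intro n hn
    rw [Ideal.mem_comap, RingHom.mem_ker] at hn
    have : ((n : ℤ) : ℂ) = 0 := by simpa using hn
    simpa using this
  have heq : 𝔭 = RingHom.ker lamHom := by
    by_contra hne
    have hlt : 𝔭 < RingHom.ker lamHom := lt_of_le_of_ne hle hne
    have := Ideal.IsIntegral.comap_lt_comap (R := ℤ) hlt
    rw [hker_comap] at this
    exact not_lt_bot this
  rw [← heq]
  exact h𝔭le

/-- Descend an eigensystem to the ring of algebraic integers and lift the maximal ideal. -/
theorem exists_maximal_over {T : Type*} [CommRing T] [Module.Finite ℤ T] (lam : T →+* ℂ)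
    (𝔪 : Ideal T) [𝔪.IsMaximal] (hker : RingHom.ker lam ≤ 𝔪) :
    ∃ (lam' : T →+* integralClosure ℤ ℂ) (𝔪' : Ideal (integralClosure ℤ ℂ)),
      (∀ t, ((lam' t : integralClosure ℤ ℂ) : ℂ) = lam t) ∧ 𝔪'.IsMaximal ∧
      ∀ t ∈ 𝔪, lam' t ∈ 𝔪' := by
  have : Algebra.IsIntegral ℤ T := Algebra.IsIntegral.of_finite ℤ T
  have hint : ∀ t, lam t ∈ integralClosure ℤ ℂ := by
    intro t
    have h1 : IsIntegral ℤ t := Algebra.IsIntegral.isIntegral t
    exact h1.map (lam.toIntAlgHom)
  let lam' : T →+* integralClosure ℤ ℂ := lam.codRestrict (integralClosure ℤ ℂ).toSubring hint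
  let _ : Algebra T (integralClosure ℤ ℂ) := lam'.toAlgebra
  have : Algebra.IsIntegral T (integralClosure ℤ ℂ) := by
    constructor
    intro x
    have hx : IsIntegral ℤ x := by
      have := x.2
      exact (isIntegral_algebraMap_iff (A := integralClosure ℤ ℂ) (B := ℂ)
        Subtype.val_injective).mp this
    exact hx.tower_top
  have hker' : RingHom.ker (algebraMap T (integralClosure ℤ ℂ)) ≤ 𝔪 := by
    intro t ht
    apply hker
    rw [RingHom.mem_ker] at ht ⊢
    exact congrArg (Subtype.val) ht
  obtain ⟨Q, hQmax, hQ⟩ := Ideal.exists_ideal_over_maximal_of_isIntegral 𝔪 hker'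
  refine ⟨lam', Q, fun t => rfl, hQmax, ?_⟩
  intro t ht
  rw [← hQ] at ht
  exact ht

end Fermat.Agent.S49
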