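import Mathlib
import Fermat.Prelude.Def_FormalHecke_Eigensystem

set_option autoImplicit false

namespace Fermat.Agent.S49

open FormalHecke

variable {R : Type*} [CommRing R]

/-- A formal Hecke eigensystem is multiplicative on coprime arguments. -/
theorem IsEigensystem.mul_of_coprime {e a : ℕ → R} (h : IsEigensystem e a) :
    ∀ m n : ℕ, m.Coprime n → a (m * n) = a m * a n := by
  obtain ⟨h1, hrec⟩ := h
  intro m
  induction m using Nat.strong_induction_on with
  | _ m ih =>
    intro n hmn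
    rcases Nat.eq_zero_or_pos m with rfl | hmpos
    · have hn : n = 1 := by simpa using hmn
      subst hn
      simp [h1]
    rcases Nat.lt_or_ge 1 m with hm1 | hm1
    swap
    · have : m = 1 := by omega
      subst this
      simp [h1]
    -- m > 1
    set ℓ := m.minFac with hℓdef
    have hℓ : ℓ.Prime := Nat.minFac_prime (by omega)
    obtain ⟨m', hm'⟩ : ℓ ∣ m := Nat.minFac_dvd m
    have hm'pos : 0 < m' := by
      rcases Nat.eq_zero_or_pos m' with h0 | h0
      · subst h0; omega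
      · exact h0
    have hm'lt : m' < m := by
      rw [hm']
      have := hℓ.two_le
      nlinarith
    have hcop' : m'.Coprime n := Nat.Coprime.coprime_dvd_left ⟨ℓ, by rw [hm', mul_comm]⟩ hmn
    have hℓn : ¬ ℓ ∣ n := by
      intro hdvd
      have : ℓ ∣ Nat.gcd m n := Nat.dvd_gcd (Nat.minFac_dvd m) hdvd
      rw [hmn] at this
      exact hℓ.one_lt.ne' (Nat.dvd_one.mp this)
    have e1 := hrec ℓ hℓ (m' * n)
    have e2 := hrec ℓ hℓ m'
    have hiff : ℓ ∣ m' * n ↔ ℓ ∣ m' := by
      constructor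
      · intro hd
        exact (hℓ.dvd_mul.mp hd).resolve_right hℓn
      · intro hd
        exact Dvd.dvd.mul_right hd n
    have hmn' : m * n = ℓ * (m' * n) := by rw [hm', mul_assoc]
    rw [hmn', hm']
    by_cases hd : ℓ ∣ m'
    · have hd' : ℓ ∣ m' * n := hiff.mpr hd
      rw [if_pos hd'] at e1
      rw [if_pos hd] at e2
      have hdiv : m' * n / ℓ = (m' / ℓ) * n := (Nat.div_mul_right_comm hd n).symm
      have hlt : m' / ℓ < m := lt_of_le_of_lt (Nat.div_le_self _ _) hm'lt
      have hcop'' : (m' / ℓ).Coprime n :=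
        Nat.Coprime.coprime_dvd_left (Nat.div_dvd_of_dvd hd) hcop'
      rw [hdiv, ih _ hlt n hcop'', ih _ hm'lt n hcop'] at e1
      linear_combination e1 - a n * e2
    · have hd' : ¬ ℓ ∣ m' * n := fun hh => hd (hiff.mp hh)
      rw [if_neg hd'] at e1
      rw [if_neg hd] at e2
      rw [ih _ hm'lt n hcop'] at e1
      linear_combination e1 - a n * e2

theorem IsEigensystem.prime_pow {e a : ℕ → R} (h : IsEigensystem e a) (ℓ r : ℕ) (hℓ : ℓ.Prime) :
    a (ℓ ^ (r + 2)) = a ℓ * a (ℓ ^ (r + 1)) - e ℓ * a (ℓ ^ r) := by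
  have e1 := h.2 ℓ hℓ (ℓ ^ (r + 1))
  rw [if_pos (dvd_pow_self ℓ (Nat.succ_ne_zero r))] at e1
  have h1 : ℓ * ℓ ^ (r + 1) = ℓ ^ (r + 2) := by ring
  have h2 : ℓ ^ (r + 1) / ℓ = ℓ ^ r := by
    rw [pow_succ]; exact Nat.mul_div_cancel _ hℓ.pos
  rw [h1, h2] at e1
  linear_combination e1

/-- If `a 1 = 0` is allowed instead of `a 1 = 1`: vanishing propagates. -/
theorem eq_zero_of_rec {e a lam : ℕ → R} (h0 : a 0 = 0) (h1 : a 1 = 0)
    (hrec : ∀ ℓ : ℕ, ℓ.Prime → ∀ n : ℕ,
      a (ℓ * n) + e ℓ * (if ℓ ∣ n then a (n / ℓ) else 0) = lam ℓ * a n) :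
    ∀ n, a n = 0 := by
  intro n
  induction n using Nat.strong_induction_on with
  | _ n ih =>
    rcases Nat.eq_zero_or_pos n with rfl | hpos
    · exact h0
    rcases Nat.lt_or_ge 1 n with hn1 | hn1
    swap
    · have : n = 1 := by omega
      subst this; exact h1
    set ℓ := n.minFac with hℓdef
    have hℓ : ℓ.Prime := Nat.minFac_prime (by omega)
    obtain ⟨m, hm⟩ : ℓ ∣ n := Nat.minFac_dvd n
    have hmlt : m < n := by
      have := hℓ.two_le
      rcases Nat.eq_zero_or_pos m with h0' | h0'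
      · subst h0'; omega
      · rw [hm]; nlinarith
    have e1 := hrec ℓ hℓ m
    rw [← hm, ih m hmlt] at e1
    have : (if ℓ ∣ m then a (m / ℓ) else 0) = 0 := by
      split_ifs
      · exact ih _ (lt_of_le_of_lt (Nat.div_le_self _ _) hmlt)
      · rfl
    rw [this] at e1
    simpa using e1

end Fermat.Agent.S49
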