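import Fermat.Statements.S49
import Fermat.Prelude.Def_CuspForm_HeckeAlgebra
import Fermat.Prelude.Thm_CuspForm_intLattice_fg
import Fermat.Prelude.Thm_CuspForm_mem_intLattice_of_mem_heckeAlgebra
import Fermat.Prelude.Thm_ModularFormClass_qCoeff_heckeT
import Fermat.Prelude.Thm_ModularFormClass_qCoeff_heckeU
import Fermat.Agent.S49H.Formal
import Fermat.Agent.S49H.Abstract

set_option autoImplicit false
open CuspForm EisensteinWeightOne CongruenceSubgroup ModularFormClass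

namespace Fermat.Agent.S49

open P2MW.S_CuspForm_intLattice_fg.W3WsD

variable {N : ℕ} {k : ℤ}

theorem qCoeff_csmul (c : ℂ) (f : CuspForm (Gamma0 N) k) (n : ℕ) :
    qCoeff ⇑(c • f) n = c * qCoeff ⇑f n := by
  simp only [qCoeff, FunLike.coe_smul]
  rw [ModularForm.qExpansion_smul one_pos (hΓ N) c f]
  simp

theorem qCoeff_cusp_zero (f : CuspForm (Gamma0 N) k) : qCoeff ⇑f 0 = 0 :=
  CuspFormClass.qExpansion_coeff_zero f one_pos (hΓ N)

theorem qCoeff_heckeTLin {ℓ : ℕ} (hℓ : ℓ.Prime) (hℓN : ¬ ℓ ∣ N) (f : CuspForm (Gamma0 N) 2)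
    (n : ℕ) :
    qCoeff ⇑(CuspForm.heckeTLin 2 hℓ hℓN f) n =
      qCoeff ⇑f (ℓ * n) + (ℓ : ℂ) * (if ℓ ∣ n then qCoeff ⇑f (n / ℓ) else 0) := by
  rw [CuspForm.coe_heckeTLin_apply, ModularFormClass.qCoeff_heckeT f (hΓ N) hℓ.ne_zero n,
    ModularForm.coeffHeckeT_apply, mul_comm n ℓ]
  split_ifs <;> simp

theorem qCoeff_heckeULin [NeZero N] {q : ℕ} (hq : q.Prime) (hqN : q ∣ N)
    (f : CuspForm (Gamma0 N) 2) (n : ℕ) :
    qCoeff ⇑(CuspForm.heckeULin 2 hqN f) n = qCoeff ⇑f (q * n) := by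
  rw [CuspForm.coe_heckeULin_apply, ModularFormClass.qCoeff_heckeU f (hΓ N) hq.ne_zero n,
    ModularForm.coeffHeckeU_apply, mul_comm n q]

theorem eq_zero_of_qCoeff [NeZero N] (f : CuspForm (Gamma0 N) k) (h : ∀ n, qCoeff ⇑f n = 0) :
    f = 0 := by
  apply trunc_injective N k
  funext i
  simp only [map_zero]
  exact h i

noncomputable def truncC (N : ℕ) (k : ℤ) :
    CuspForm (Gamma0 N) k →ₗ[ℂ] (Fin (sturmB N k + 1) → ℂ) where
  toFun f i := qCoeff ⇑f i
  map_add' f g := by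
    funext i
    exact qCoeff_add f g i
  map_smul' c f := by
    funext i
    simp only [Pi.smul_apply, RingHom.id_apply, smul_eq_mul]
    exact qCoeff_csmul c f i

theorem finiteDimensional_cuspForm (N : ℕ) [NeZero N] (k : ℤ) :
    FiniteDimensional ℂ (CuspForm (Gamma0 N) k) := by
  apply Module.Finite.of_injective (truncC N k)
  intro f g hfg
  apply trunc_injective N k
  exact hfg

theorem qIntegralSet_subset_intLattice (N : ℕ) :
    qIntegralSet N ⊆ (CuspForm.intLattice N 2 : Set (CuspForm (Gamma0 N) 2)) := by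
  intro f hf
  rw [SetLike.mem_coe, mem_intLattice_iff]
  intro n
  obtain ⟨m, hm⟩ := Subring.mem_bot.mp (hf n)
  exact ⟨m, hm.symm⟩

end Fermat.Agent.S49
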