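import Fermat.Agent.S49H.Forms

set_option autoImplicit false
open CuspForm EisensteinWeightOne CongruenceSubgroup ModularFormClass

namespace Fermat.Agent.S49

open P2MW.S_CuspForm_intLattice_fg.W3WsD

variable {N : ℕ} [NeZero N]

/-- Restriction of the Hecke algebra to the integral lattice. -/
noncomputable def restrictLattice (N : ℕ) [NeZero N] :
    CuspForm.heckeAlgebra N 2 ∅ →ₗ[ℤ] Module.End ℤ (CuspForm.intLattice N 2) where
  toFun t := ((t : Module.End ℂ (CuspForm (Gamma0 N) 2)).restrictScalars ℤ).restrict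
    (fun _ hf => CuspForm.mem_intLattice_of_mem_heckeAlgebra (by norm_num) t.2 hf)
  map_add' s t := by
    ext f
    rfl
  map_smul' c t := by
    ext f
    rfl

theorem restrictLattice_injective (h : CuspForm.HasIntegralBasis N) :
    Function.Injective (restrictLattice N) := by
  intro s t hst
  apply Subtype.ext
  apply LinearMap.ext_on h
  intro f hf
  have hfL : f ∈ CuspForm.intLattice N 2 := qIntegralSet_subset_intLattice N hf
  have := congrArg (fun (r : Module.End ℤ (CuspForm.intLattice N 2)) => ((r ⟨f, hfL⟩ : _) :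
    CuspForm (Gamma0 N) 2)) hst
  exact this

theorem finite_heckeAlgebra (h : CuspForm.HasIntegralBasis N) :
    Module.Finite ℤ (CuspForm.heckeAlgebra N 2 ∅) := by
  have hfg : Module.Finite ℤ (CuspForm.intLattice N 2) :=
    Module.Finite.iff_fg.mpr (CuspForm.intLattice_fg N 2)
  have htf : IsAddTorsionFree (CuspForm (Gamma0 N) 2) :=
    IsAddTorsionFree.of_isTorsionFree ℂ (CuspForm (Gamma0 N) 2)
  have htf' : Module.IsTorsionFree ℤ (CuspForm.intLattice N 2) := inferInstance
  have hfree : Module.Free ℤ (CuspForm.intLattice N 2) := inferInstance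
  exact Module.Finite.of_injective (restrictLattice N) (restrictLattice_injective h)

end Fermat.Agent.S49

namespace Fermat.Agent.S49

open P2MW.S_CuspForm_intLattice_fg.W3WsD

variable {N : ℕ} [NeZero N]

/-- Forms all of whose `q`-coefficients are integers divisible by `3`. -/
def DivThree (f : CuspForm (Gamma0 N) 2) : Prop := ∀ n, ∃ m : ℤ, qCoeff ⇑f n = 3 * (m : ℂ)

theorem DivThree.hecke {f : CuspForm (Gamma0 N) 2} (hf : DivThree f)
    (t : CuspForm.heckeAlgebra N 2 ∅) :
    DivThree ((t : Module.End ℂ (CuspForm (Gamma0 N) 2)) f) := by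
  choose m hm using hf
  set h : CuspForm (Gamma0 N) 2 := (3⁻¹ : ℂ) • f with hh
  have hL : h ∈ CuspForm.intLattice N 2 := by
    rw [mem_intLattice_iff]
    intro n
    refine ⟨m n, ?_⟩
    rw [hh, qCoeff_csmul, hm n]
    field_simp
  have hf3 : f = (3 : ℂ) • h := by
    rw [hh, smul_smul]
    norm_num
  have hth := CuspForm.mem_intLattice_of_mem_heckeAlgebra (by norm_num) t.2 hL
  rw [mem_intLattice_iff] at hth
  intro n
  obtain ⟨m', hm'⟩ := hth n
  refine ⟨m', ?_⟩
  rw [hf3, map_smul, qCoeff_csmul, hm']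

/-- The ideal of Hecke operators killing `f₀` modulo `3`. -/
def congIdeal (f₀ : CuspForm (Gamma0 N) 2) : Ideal (CuspForm.heckeAlgebra N 2 ∅) where
  carrier := {t | DivThree ((t : Module.End ℂ (CuspForm (Gamma0 N) 2)) f₀)}
  add_mem' := by
    intro s t hs ht n
    obtain ⟨x, hx⟩ := hs n
    obtain ⟨y, hy⟩ := ht n
    refine ⟨x + y, ?_⟩
    show qCoeff ⇑((s : Module.End ℂ (CuspForm (Gamma0 N) 2)) f₀ +
      (t : Module.End ℂ (CuspForm (Gamma0 N) 2)) f₀) n = _
    rw [qCoeff_add, hx, hy]
    push_cast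
    ring
  zero_mem' := by
    intro n
    refine ⟨0, ?_⟩
    show qCoeff ⇑(0 : CuspForm (Gamma0 N) 2) n = _
    rw [qCoeff_zero']
    simp
  smul_mem' := by
    intro c x hx
    exact DivThree.hecke hx c

theorem mem_congIdeal (f₀ : CuspForm (Gamma0 N) 2) (t : CuspForm.heckeAlgebra N 2 ∅) :
    t ∈ congIdeal f₀ ↔ DivThree ((t : Module.End ℂ (CuspForm (Gamma0 N) 2)) f₀) := Iff.rfl

theorem bridge_coeff (a : ℕ → ℤ) (n : ℕ) : (3 : ℤ) ∣ (bridgeProduct a).coeff n - a n := by
  have hE : e1Chi3In ℤ = 1 + PowerSeries.C 3 *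
      PowerSeries.mk (fun n => if n = 0 then 0 else 2 * sigmaChi n) := by
    ext n
    simp only [e1Chi3In, e1Chi3, PowerSeries.coeff_map, PowerSeries.coeff_mk, map_add,
      PowerSeries.coeff_one, PowerSeries.coeff_C_mul]
    split_ifs <;> simp <;> ring
  have : bridgeProduct a = PowerSeries.mk a + PowerSeries.C 3 * (PowerSeries.mk a *
      PowerSeries.mk (fun n => if n = 0 then 0 else 2 * sigmaChi n)) := by
    rw [bridgeProduct, hE]
    ring
  rw [this, map_add, PowerSeries.coeff_C_mul, PowerSeries.coeff_mk, add_sub_cancel_left]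
  exact Dvd.intro _ rfl

theorem chiNegThree_cong (ℓ : ℕ) : (3 : ℤ) ∣ (ℓ : ℤ) - chiNegThree ℓ := by
  unfold chiNegThree
  split_ifs with h1 h2 <;> omega

end Fermat.Agent.S49
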